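import Fermat.Agent.PT.Loc.H33NICoh
import Fermat.Agent.PT.Loc.H33NINB
import Fermat.Agent.PT.Loc.H33NIHQ
import Fermat.Agent.PT.Loc.H57NIFin
import Fermat.Agent.PT.Loc.H24NIH90
import Fermat.Agent.PT.Loc.H54NIAdapt

/-!
# W3-PT / PT-LOC leaf NI-MAIN (helper33): the local norm index theorem in prime degree

`niMain_holds : NIMain` — for `K₁/K` cyclic of prime degree `p` (any residue characteristic) the
norm group `N(K₁ˣ)` has index exactly `p` in `Kˣ`.

Assembly of
* `h33nb_normalBasis : H33NormalBasis` (helper33; also `h49nb_normalBasis`, helper49),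
* `h33n_cohTriv_of : H33NormalBasis → H33CohTriv` (helper33, `NormLattice.lean`),
* `h57_finIdx : H33FinIdx` (helper57),
* `h24h9_hilbert90 : H33Hilbert90` (helper24),
* `h33q_normIndex_of : H33CohTriv → H33FinIdx → H33Hilbert90 → H33NormIndex` (helper33, Herbrand
  quotients of helper35's `S14/B/HerbrandIdx.lean`),
* `h54n_niMain_of : H33NormIndex → NIMain` (helper54).
-/

namespace Fermat.Agent.PT.Loc

/-- the abstract norm index theorem. -/
theorem h33n_normIndex : H33NormIndex :=
  h33q_normIndex_of (h33n_cohTriv_of h33nb_normalBasis) h57_finIdx h24h9_hilbert90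

/-- **NI-MAIN**: the local norm index theorem in prime degree. -/
theorem niMain_holds : NIMain := h54n_niMain_of h33n_normIndex

end Fermat.Agent.PT.Loc
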