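import Mathlib
import Fermat.Agent.PT.Loc.Basic

/-!
# W3-PT / PT-LOC, leaf LOC-NI-MAIN (second seat helper97): the adapter
`IsCyc K K₁ n σ` ⟹ relative cyclic Galois data in Mathlib form

For `h : IsCyc K K₁ n σ` (`K K₁ : LF q`), with `L := h97a_L h : IntermediateField K (Om q)`
(`= K₁` as a set):
* `h97a_finiteDimensional`, `h97a_normal`, `h97a_isGalois_rel` : `L / K` is finite Galois;
* `h97a_sig1 h : Gal(L/K)` : the restriction of `σ`, `h97a_sig1_apply`, `h97a_sig1_pow_apply`;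
* `h97a_exists_pow`, `h97a_orderOf`, `h97a_zpowers_eq_top`, `h97a_isCyclic`, `h97a_card`,
  `h97a_finrank` : `Gal(L/K) = ⟨σ₁⟩` is cyclic of order `n = [L : K]`;
* `h97a_normAlong` : `normAlong σ n β = algebraMap K (Om q) (Algebra.norm K β)` for `β ∈ K₁`;
  `h97a_isNorm_iff`, `h97a_normAlong_mem`;
* `h97a_mem_of_sigma_fixed` : an element of `K₁` fixed by `σ` lies in `K`;
  `h97a_map_mem` : `G_K` preserves `K₁`; `h97a_pow_n_mem` : `σ ^ n ∈ G_{K₁}`;
* `h97a_norm_map` : Galois invariance of the ambient norm.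
-/

set_option autoImplicit false
set_option linter.style.haveILetI false

open scoped Classical

noncomputable section

namespace Fermat.Agent.PT.Loc

variable {q : ℕ} [Fact q.Prime]

/-- `ℚ̄_q / ℚ_q` is Galois. -/
theorem h97a_isGalois (q : ℕ) [Fact q.Prime] : IsGalois ℚ_[q] (Om q) := inferInstance

/-- elements fixed by `G_K` lie in `K`. -/
theorem h97a_mem_of_fixed (K : LF q) (x : Om q) (hx : ∀ g ∈ GK K, g x = x) : x ∈ K := by
  have h1 : IntermediateField.fixedField (GK K) = K :=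
    InfiniteGalois.fixedField_fixingSubgroup K
  rw [← h1]
  intro g
  exact hx g.1 g.2

theorem h97a_fixed_of_mem {K : LF q} {g : Gq q} (hg : g ∈ GK K) {x : Om q} (hx : x ∈ K) :
    g x = x :=
  (IntermediateField.mem_fixingSubgroup_iff K g).mp hg x hx

section Cyc

variable {K K₁ : LF q} {n : ℕ} {σ : Gq q} (h : IsCyc K K₁ n σ)
include h

/-- `G_K` preserves `K₁`. -/
theorem h97a_map_mem {g : Gq q} (hg : g ∈ GK K) {x : Om q} (hx : x ∈ K₁) : g x ∈ K₁ := by
  apply h97a_mem_of_fixed K₁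
  intro s hs
  have h1 : g⁻¹ * s * g⁻¹⁻¹ ∈ GK K₁ := h.normal g⁻¹ ((GK K).inv_mem hg) s hs
  have h2 := h97a_fixed_of_mem h1 hx
  have h3 : (g⁻¹ * s * g⁻¹⁻¹) x = g⁻¹ (s (g x)) := by
    rw [inv_inv]
    rfl
  rw [h3] at h2
  have h4 : g (g⁻¹ (s (g x))) = g x := by rw [h2]
  have h5 : g (g⁻¹ (s (g x))) = s (g x) := by
    change (g * g⁻¹) (s (g x)) = _
    rw [mul_inv_cancel]
    rfl
  rw [h5] at h4
  exact h4

theorem h97a_pow_mem (i : ℕ) : σ ^ i ∈ GK K := (GK K).pow_mem h.mem i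

/-- `σ^n` fixes `K₁`. -/
theorem h97a_pow_n_mem : σ ^ n ∈ GK K₁ := by
  obtain ⟨i, hi, hmem⟩ := h.gen (σ ^ n) (h97a_pow_mem h n)
  rcases Nat.eq_zero_or_pos i with rfl | hpos
  · simpa using hmem
  · exfalso
    have h1 : (σ ^ i)⁻¹ * σ ^ n = σ ^ (n - i) := by
      rw [inv_mul_eq_iff_eq_mul, ← pow_add]
      congr 1
      omega
    rw [h1] at hmem
    exact h.ord (n - i) (by omega) (by omega) hmem

/-- an element of `K₁` fixed by `σ` lies in `K`. -/
theorem h97a_mem_of_sigma_fixed {x : Om q} (hx : x ∈ K₁) (hσ : σ x = x) : x ∈ K := by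
  apply h97a_mem_of_fixed K
  intro g hg
  obtain ⟨i, -, hmem⟩ := h.gen g hg
  have h1 := h97a_fixed_of_mem hmem hx
  have h2 : ((σ ^ i)⁻¹ * g) x = (σ ^ i)⁻¹ (g x) := rfl
  rw [h2] at h1
  have h3 : ∀ j : ℕ, (σ ^ j) x = x := by
    intro j
    induction j with
    | zero => simp
    | succ j ih =>
      rw [pow_succ]
      change (σ ^ j) (σ x) = x
      rw [hσ, ih]
  have h4 : (σ ^ i) ((σ ^ i)⁻¹ (g x)) = g x := by
    change ((σ ^ i) * (σ ^ i)⁻¹) (g x) = _
    rw [mul_inv_cancel]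
    rfl
  rw [h1, h3 i] at h4
  exact h4.symm

end Cyc


/-! ### the relative extension `K₁/K` -/

/-- the relative extension `K₁/K` as an intermediate field of `Om q / K`. -/
abbrev h97a_L {K K₁ : LF q} {n : ℕ} {σ : Gq q} (h : IsCyc K K₁ n σ) :
    IntermediateField K (Om q) :=
  IntermediateField.extendScalars h.le

/-- an element of `Gal(Om q / K)` as an element of `G_K`. -/
theorem h97a_restrictScalars_mem (K : LF q) (τ : Gal(Om q/K)) :
    (τ.restrictScalars ℚ_[q] : Gq q) ∈ GK K := by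
  rw [IntermediateField.mem_fixingSubgroup_iff]
  intro x hx
  exact τ.commutes ⟨x, hx⟩

section Rel

variable {K K₁ : LF q} {n : ℕ} {σ : Gq q} (h : IsCyc K K₁ n σ)

theorem h97a_finiteDimensional : FiniteDimensional K (h97a_L h) := by
  haveI := h.fin
  have : FiniteDimensional ℚ_[q] (h97a_L h) := inferInstanceAs (FiniteDimensional ℚ_[q] K₁)
  exact FiniteDimensional.right ℚ_[q] K _

theorem h97a_normal : Normal K (h97a_L h) := by
  rw [IntermediateField.normal_iff_forall_map_le']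
  intro τ y hy
  obtain ⟨x, hx, rfl⟩ := hy
  exact h97a_map_mem h (h97a_restrictScalars_mem K τ) hx

theorem h97a_isGalois_rel : IsGalois K (h97a_L h) := by
  haveI := h97a_normal h
  exact ⟨⟩

/-- `σ` as an element of `Gal(Om q / K)`. -/
def h97a_sigK : Gal(Om q/K) := IntermediateField.fixingSubgroupEquiv K ⟨σ, h.mem⟩

theorem h97a_sigK_apply (x : Om q) : h97a_sigK h x = σ x := rfl

/-- the restriction of `σ` to `K₁`. -/
def h97a_sig1 : Gal(h97a_L h/K) :=
  haveI := h97a_normal h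
  AlgEquiv.restrictNormal (h97a_sigK h) (h97a_L h)

theorem h97a_sig1_apply (x : h97a_L h) : ((h97a_sig1 h x : h97a_L h) : Om q) = σ (x : Om q) := by
  haveI := h97a_normal h
  exact AlgEquiv.restrictNormal_commutes (h97a_sigK h) (h97a_L h) x

theorem h97a_sig1_pow_apply (i : ℕ) (x : h97a_L h) :
    ((((h97a_sig1 h) ^ i) x : h97a_L h) : Om q) = (σ ^ i) (x : Om q) := by
  induction i generalizing x with
  | zero => simp
  | succ i ih =>
    rw [pow_succ, pow_succ]
    change ((((h97a_sig1 h) ^ i) ((h97a_sig1 h) x) : h97a_L h) : Om q) = (σ ^ i) (σ (x : Om q))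
    rw [ih, h97a_sig1_apply]

/-- every element of `Gal(K₁/K)` is a power of `σ`. -/
theorem h97a_exists_pow (τ : Gal(h97a_L h/K)) : ∃ i, i < n ∧ τ = (h97a_sig1 h) ^ i := by
  haveI := h97a_normal h
  obtain ⟨τ', rfl⟩ := AlgEquiv.restrictNormalHom_surjective (Om q) τ
  obtain ⟨i, hi, hmem⟩ := h.gen _ (h97a_restrictScalars_mem K τ')
  refine ⟨i, hi, ?_⟩
  apply AlgEquiv.ext
  intro x
  apply Subtype.ext
  rw [h97a_sig1_pow_apply]
  have h1 : ((AlgEquiv.restrictNormalHom (h97a_L h) τ' x : h97a_L h) : Om q) = τ' (x : Om q) :=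
    AlgEquiv.restrictNormal_commutes τ' (h97a_L h) x
  rw [h1]
  have h2 := h97a_fixed_of_mem hmem (show (x : Om q) ∈ K₁ from x.2)
  have h3 : ((σ ^ i)⁻¹ * (τ'.restrictScalars ℚ_[q] : Gq q)) (x : Om q) =
      (σ ^ i)⁻¹ (τ' (x : Om q)) := rfl
  rw [h3] at h2
  have h4 : (σ ^ i) ((σ ^ i)⁻¹ (τ' (x : Om q))) = τ' (x : Om q) := by
    change ((σ ^ i) * (σ ^ i)⁻¹) (τ' (x : Om q)) = _
    rw [mul_inv_cancel]
    rfl
  rw [h2] at h4
  exact h4.symm

theorem h97a_sig1_pow_n : (h97a_sig1 h) ^ n = 1 := by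
  apply AlgEquiv.ext
  intro x
  apply Subtype.ext
  rw [h97a_sig1_pow_apply]
  exact h97a_fixed_of_mem (h97a_pow_n_mem h) (show (x : Om q) ∈ K₁ from x.2)

theorem h97a_sig1_pow_ne_one (i : ℕ) (hi0 : 0 < i) (hin : i < n) : (h97a_sig1 h) ^ i ≠ 1 := by
  intro h1
  apply h.ord i hi0 hin
  rw [IntermediateField.mem_fixingSubgroup_iff]
  intro x hx
  have h2 := h97a_sig1_pow_apply h i ⟨x, hx⟩
  rw [h1] at h2
  exact h2.symm

theorem h97a_orderOf : orderOf (h97a_sig1 h) = n := by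
  rw [orderOf_eq_iff h.pos]
  exact ⟨h97a_sig1_pow_n h, fun m hm hm0 => h97a_sig1_pow_ne_one h m hm0 hm⟩

theorem h97a_zpowers_eq_top : Subgroup.zpowers (h97a_sig1 h) = ⊤ := by
  rw [eq_top_iff]
  intro τ _
  obtain ⟨i, -, rfl⟩ := h97a_exists_pow h τ
  exact Subgroup.npow_mem_zpowers _ i

theorem h97a_card : Nat.card Gal(h97a_L h/K) = n := by
  have h1 : Nat.card (Subgroup.zpowers (h97a_sig1 h)) = n := by
    rw [Nat.card_zpowers]
    exact h97a_orderOf h
  rw [h97a_zpowers_eq_top h] at h1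
  exact (Nat.card_congr Subgroup.topEquiv.toEquiv).symm.trans h1

theorem h97a_finrank : Module.finrank K (h97a_L h) = n := by
  haveI := h97a_finiteDimensional h
  haveI := h97a_isGalois_rel h
  rw [← IsGalois.card_aut_eq_finrank, h97a_card h]

theorem h97a_isCyclic : IsCyclic Gal(h97a_L h/K) :=
  ⟨⟨h97a_sig1 h, fun τ => by
    have : τ ∈ Subgroup.zpowers (h97a_sig1 h) := by rw [h97a_zpowers_eq_top h]; trivial
    exact this⟩⟩

/-- the product over `Gal(K₁/K)` is the product over the powers of `σ`. -/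
theorem h97a_prod_gal [Fintype Gal(h97a_L h/K)] (f : Gal(h97a_L h/K) → Om q) :
    ∏ τ : Gal(h97a_L h/K), f τ = ∏ i ∈ Finset.range n, f ((h97a_sig1 h) ^ i) := by
  symm
  refine Finset.prod_bij (fun i _ => (h97a_sig1 h) ^ i) (fun _ _ => Finset.mem_univ _) ?_ ?_
    (fun _ _ => rfl)
  · intro i hi j hj hij
    have h1 : i ∈ Set.Iio (orderOf (h97a_sig1 h)) := by
      rw [h97a_orderOf h]
      exact Finset.mem_range.mp hi
    have h2 : j ∈ Set.Iio (orderOf (h97a_sig1 h)) := by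
      rw [h97a_orderOf h]
      exact Finset.mem_range.mp hj
    exact pow_injOn_Iio_orderOf h1 h2 hij
  · intro τ _
    obtain ⟨i, hi, rfl⟩ := h97a_exists_pow h τ
    exact ⟨i, Finset.mem_range.mpr hi, rfl⟩

/-- **the norm along `σ` is the relative norm `N_{K₁/K}`.** -/
theorem h97a_normAlong (β : h97a_L h) :
    normAlong σ n (β : Om q) = algebraMap K (Om q) (Algebra.norm K β) := by
  haveI := h97a_finiteDimensional h
  haveI := h97a_isGalois_rel h
  have h1 := Algebra.norm_eq_prod_automorphisms K β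
  have h2 : algebraMap K (Om q) (Algebra.norm K β) =
      algebraMap (h97a_L h) (Om q) (algebraMap K (h97a_L h) (Algebra.norm K β)) :=
    IsScalarTower.algebraMap_apply K (h97a_L h) (Om q) _
  rw [h2, h1, map_prod]
  rw [h97a_prod_gal h (fun τ => algebraMap (h97a_L h) (Om q) (τ β))]
  unfold normAlong
  refine Finset.prod_congr rfl (fun i _ => ?_)
  exact (h97a_sig1_pow_apply h i β).symm

include h in
/-- the norm along `σ` of an element of `K₁` lies in `K`. -/
theorem h97a_normAlong_mem {β : Om q} (hβ : β ∈ K₁) : normAlong σ n β ∈ K := by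
  have h1 := h97a_normAlong h ⟨β, hβ⟩
  rw [h1]
  exact (Algebra.norm K (⟨β, hβ⟩ : h97a_L h)).2

/-- `IsNorm` in terms of the relative norm. -/
theorem h97a_isNorm_iff (b : Om q) :
    IsNorm K₁ σ n b ↔
      ∃ β : h97a_L h, β ≠ 0 ∧ algebraMap K (Om q) (Algebra.norm K β) = b := by
  constructor
  · rintro ⟨β, hβ, hβ0, hN⟩
    refine ⟨⟨β, hβ⟩, fun h0 => hβ0 (congrArg Subtype.val h0), ?_⟩
    rw [← h97a_normAlong h ⟨β, hβ⟩]
    exact hN
  · rintro ⟨β, hβ0, hN⟩
    refine ⟨(β : Om q), β.2, fun h0 => hβ0 (Subtype.ext h0), ?_⟩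
    rw [h97a_normAlong h β]
    exact hN

end Rel

/-- Galois invariance of the ambient norm. -/
theorem h97a_norm_map (g : Gq q) (x : Om q) : ‖g x‖ = ‖x‖ := by
  have h := nnnorm_padicAlgCl_algEquiv q g x
  exact congrArg NNReal.toReal h

end Fermat.Agent.PT.Loc

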